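import Mathlib

set_option autoImplicit false
set_option linter.unusedSectionVars false

/-!
# S36, chapter (P): factoriality of a two dimensional local ring with a regular curve through the point

`O` a noetherian local domain, `G ∈ 𝔪_O` such that `O ⧸ (G)` is a principal ideal domain (e.g. a DVR).
* `isPrincipal_of_notMem` : every prime ideal `Q ∌ G` is principal
  (`Q ∩ (G) = G Q`, so `Q / G Q` is an ideal of `O ⧸ (G)`, principal; Nakayama).
* `ufd_of_quotient_pid` : `O` is a UFD (Kaplansky's criterion).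
* `exists_unit_mul_pow` (any UFD): an element `u` of the fraction field all of whose prime multiplicities are
  divisible by `m` is a unit times an `m`-th power.
This replaces the purity lemma of the blueprint.
-/

namespace Fermat.Agent.S36

open Ideal

section Local

variable {O : Type*} [CommRing O] [IsDomain O] [IsNoetherianRing O] [IsLocalRing O]

/-- every prime ideal which does not contain `G` is principal. -/
theorem isPrincipal_of_notMem (G : O) (hG : ¬ IsUnit G)
    (hpir : IsPrincipalIdealRing (O ⧸ Ideal.span {G})) (Q : Ideal O) [hQ : Q.IsPrime] (hGQ : G ∉ Q) :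
    Q.IsPrincipal := by
  obtain ⟨ybar, hy⟩ := hpir.principal (Q.map (Ideal.Quotient.mk (Ideal.span {G})))
  have hymem : ybar ∈ Q.map (Ideal.Quotient.mk (Ideal.span {G})) := by
    rw [hy]; exact Submodule.mem_span_singleton_self _
  obtain ⟨f, hfQ, hf⟩ :=
    (Ideal.mem_map_iff_of_surjective _ Ideal.Quotient.mk_surjective).1 hymem
  refine ⟨f, le_antisymm ?_ ((Ideal.span_singleton_le_iff_mem Q).2 hfQ)⟩
  refine Submodule.le_of_le_smul_of_le_jacobson_bot (I := Ideal.span {G}) (IsNoetherian.noetherian Q)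
    ?_ ?_
  · rw [IsLocalRing.jacobson_eq_maximalIdeal ⊥ bot_ne_top, Ideal.span_singleton_le_iff_mem]
    exact (IsLocalRing.mem_maximalIdeal G).2 hG
  · intro x hx
    have hxmem : Ideal.Quotient.mk (Ideal.span {G}) x ∈
        Q.map (Ideal.Quotient.mk (Ideal.span {G})) := Ideal.mem_map_of_mem _ hx
    rw [hy] at hxmem
    obtain ⟨cbar, hc⟩ := Submodule.mem_span_singleton.1 hxmem
    obtain ⟨c, rfl⟩ := Ideal.Quotient.mk_surjective cbar
    rw [← hf, smul_eq_mul, ← map_mul, Ideal.Quotient.eq, Ideal.mem_span_singleton] at hc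
    obtain ⟨a, ha⟩ := hc
    have haQ : a ∈ Q := by
      have h1 : G * a ∈ Q := by
        rw [← ha]
        exact Q.sub_mem (Q.mul_mem_left _ hfQ) hx
      exact (hQ.mem_or_mem h1).resolve_left hGQ
    have hx' : x = c * f + G • (-a) := by
      rw [smul_eq_mul, mul_neg, ← ha]; ring
    rw [hx']
    refine Submodule.add_mem_sup (Ideal.mem_span_singleton.2 (Dvd.intro_left c rfl)) ?_
    exact Submodule.smul_mem_smul (Ideal.mem_span_singleton_self G) (Q.neg_mem haQ)

/-- `O` is factorial. -/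
theorem ufd_of_quotient_pid (G : O) (hG : Prime G)
    (hpir : IsPrincipalIdealRing (O ⧸ Ideal.span {G})) : UniqueFactorizationMonoid O := by
  rw [UniqueFactorizationMonoid.iff_exists_prime_mem_of_isPrime]
  intro Q hQ0 hQ
  by_cases hGQ : G ∈ Q
  · exact ⟨G, hGQ, hG⟩
  · have hp := isPrincipal_of_notMem G hG.not_isUnit hpir Q hGQ
    exact ⟨hp.generator, hp.generator_mem, hp.prime_generator_of_isPrime Q hQ0⟩

end Local

section UFD

variable {O : Type*} [CommRing O] [IsDomain O] [UniqueFactorizationMonoid O]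

/-- all prime multiplicities of `x` are divisible by `m`. -/
def PowLike (m : ℕ) (x : O) : Prop :=
  ∀ f : O, Prime f → ∃ (k : ℕ) (a : O), ¬ f ∣ a ∧ x = f ^ (m * k) * a

theorem PowLike.of_mul {m : ℕ} {x y : O} (hxy : IsRelPrime x y) (h : PowLike m (x * y)) :
    PowLike m x := by
  intro f hf
  by_cases hfx : f ∣ x
  · have hfy : ¬ f ∣ y := fun hfy => hf.not_isUnit (hxy hfx hfy)
    obtain ⟨k, a, ha, e⟩ := h f hf
    obtain ⟨x', rfl⟩ : f ^ (m * k) ∣ x :=
      hf.pow_dvd_of_dvd_mul_right _ hfy (e ▸ Dvd.intro _ rfl)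
    refine ⟨k, x', fun hx' => ha ?_, rfl⟩
    rw [mul_assoc] at e
    rw [← mul_left_cancel₀ (pow_ne_zero _ hf.ne_zero) e]
    exact Dvd.dvd.mul_right hx' y
  · exact ⟨0, x, hfx, by simp⟩

theorem PowLike.exists_eq {m : ℕ} (hm : 0 < m) (x : O) :
    PowLike m x → ∃ (ε : Oˣ) (y : O), x = ε * y ^ m := by
  induction x using UniqueFactorizationMonoid.induction_on_coprime with
  | h0 => exact fun _ => ⟨1, 0, by simp [hm.ne']⟩
  | h1 hx => exact fun _ => ⟨hx.unit, 1, by simp⟩
  | hpr i hp =>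
    rename_i p
    intro h
    obtain ⟨k, a, ha, e⟩ := h p hp
    have hik : i = m * k := by
      rcases lt_trichotomy i (m * k) with hlt | heq | hgt
      · exfalso
        obtain ⟨d, hd⟩ := Nat.exists_eq_add_of_lt hlt
        rw [hd, add_assoc, pow_add, mul_assoc] at e
        have e' := mul_left_cancel₀ (pow_ne_zero i hp.ne_zero) ((mul_one _).trans e)
        rw [pow_succ, mul_assoc, mul_comm, mul_assoc] at e'
        exact hp.not_isUnit (IsUnit.of_mul_eq_one _ e'.symm)
      · exact heq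
      · exfalso
        obtain ⟨d, hd⟩ := Nat.exists_eq_add_of_lt hgt
        rw [hd, add_assoc, pow_add] at e
        have e' := mul_left_cancel₀ (pow_ne_zero _ hp.ne_zero) e
        exact ha (e' ▸ dvd_pow_self p (Nat.succ_ne_zero d))
    exact ⟨1, p ^ k, by rw [hik, Units.val_one, one_mul, ← pow_mul, mul_comm]⟩
  | hcp hxy ihx ihy =>
    rename_i x y
    intro h
    obtain ⟨ε₁, y₁, e₁⟩ := ihx (h.of_mul hxy)
    obtain ⟨ε₂, y₂, e₂⟩ := ihy (PowLike.of_mul hxy.symm (mul_comm x y ▸ h))
    exact ⟨ε₁ * ε₂, y₁ * y₂, by rw [e₁, e₂, Units.val_mul, mul_pow]; ring⟩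

variable {L : Type*} [Field L] [Algebra O L] [IsFractionRing O L]

/-- **Kummer corollary.**  If at every prime element `f` of the UFD `O` the element `u` of the fraction field
is `f ^ (m k)` times an `f`-adic unit, then `u` is a unit of `O` times an `m`-th power. -/
theorem exists_unit_mul_pow {m : ℕ} (hm : 0 < m) (u : L)
    (h : ∀ f : O, Prime f → ∃ (k : ℤ) (a b : O), ¬ f ∣ a ∧ ¬ f ∣ b ∧
      u * algebraMap O L b = algebraMap O L f ^ ((m : ℤ) * k) * algebraMap O L a) :
    ∃ (ε : Oˣ) (w : L), u = algebraMap O L ε * w ^ m := by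
  have hinj : Function.Injective (algebraMap O L) := IsFractionRing.injective O L
  obtain ⟨a₀, b₀, hb₀, rfl⟩ := IsFractionRing.div_surjective (A := O) u
  have hb₀0 : b₀ ≠ 0 := nonZeroDivisors.ne_zero hb₀
  have hb₀L : algebraMap O L b₀ ≠ 0 := fun h0 => hb₀0 (hinj (h0.trans (map_zero _).symm))
  obtain ⟨m', rfl⟩ : ∃ m', m = m' + 1 := ⟨m - 1, by omega⟩
  -- `c = a₀ b₀ ^ (m-1)` is `u` times an `m`-th power
  have hc : PowLike (m' + 1) (a₀ * b₀ ^ m') := by
    intro f hf
    have hfL : algebraMap O L f ≠ 0 := fun h0 => hf.ne_zero (hinj (h0.trans (map_zero _).symm))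
    obtain ⟨k, a, b, ha, hb, e⟩ := h f hf
    obtain ⟨j, b₁, hb₁, eb⟩ := WfDvdMonoid.max_power_factor hb₀0 hf.irreducible
    -- `c b = f ^ (m (k + j)) a b₁ ^ m`
    have e1 : algebraMap O L (a₀ * b₀ ^ m' * b) =
        algebraMap O L f ^ (((m' + 1 : ℕ) : ℤ) * (k + j)) * algebraMap O L (a * b₁ ^ (m' + 1)) := by
      have e2 : algebraMap O L (a₀ * b₀ ^ m' * b) =
          (algebraMap O L a₀ / algebraMap O L b₀ * algebraMap O L b) *
            algebraMap O L b₀ ^ (m' + 1) := by
        rw [map_mul, map_mul, map_pow]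
        field_simp
        ring
      rw [e2, e, mul_add, zpow_add₀ hfL, map_mul, map_pow]
      conv_lhs => rw [eb]
      rw [map_mul, map_pow, mul_pow, ← pow_mul, zpow_mul, zpow_mul, zpow_natCast, zpow_natCast]
      ring
    have hab₁ : ¬ f ∣ a * b₁ ^ (m' + 1) := fun hd =>
      (hf.dvd_or_dvd hd).elim ha fun h' => hb₁ (hf.dvd_of_dvd_pow h')
    rcases le_or_gt 0 (k + j) with h0 | h0
    · obtain ⟨n, hn⟩ := Int.eq_ofNat_of_zero_le h0
      rw [hn, ← Nat.cast_mul, zpow_natCast, ← map_pow, ← map_mul] at e1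
      have e3 := hinj e1
      obtain ⟨c', hc'⟩ : f ^ ((m' + 1) * n) ∣ a₀ * b₀ ^ m' :=
        hf.pow_dvd_of_dvd_mul_right _ hb (e3 ▸ Dvd.intro _ rfl)
      refine ⟨n, c', fun hd => hab₁ ?_, hc'⟩
      rw [hc', mul_assoc] at e3
      rw [← mul_left_cancel₀ (pow_ne_zero _ hf.ne_zero) e3]
      exact Dvd.dvd.mul_right hd b
    · exfalso
      obtain ⟨n, hn⟩ := Int.exists_eq_neg_ofNat h0.le
      have hn0 : n ≠ 0 := by
        rintro rfl
        simp at hn
        omega
      rw [hn, mul_neg, zpow_neg, ← Nat.cast_mul, zpow_natCast, ← map_pow,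
        inv_mul_eq_div, eq_div_iff (by rw [map_pow]; exact pow_ne_zero _ hfL), ← map_mul] at e1
      apply hab₁
      rw [← hinj e1]
      exact Dvd.dvd.mul_left (dvd_pow_self f (Nat.mul_ne_zero (Nat.succ_ne_zero m') hn0)) _
  obtain ⟨ε, y, hy⟩ := hc.exists_eq (Nat.succ_pos m')
  refine ⟨ε, algebraMap O L y / algebraMap O L b₀, ?_⟩
  rw [div_pow, ← map_pow, mul_div_assoc', ← map_mul, ← hy, map_mul, map_pow]
  field_simp
  ring

end UFD

end Fermat.Agent.S36
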